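/-
S44, block X, sub-block COVER / SETUP (owner helper93).  From relations between classes in the Kummer
model `W N p` to relations between functions.
-/
import Fermat.Agent.GAL.E.HeckeOp

set_option autoImplicit false

noncomputable section

namespace Fermat.Agent.S44.X.Cover

open ModularCurve AlgebraicCurve Fermat.Agent.S24 Fermat.Agent.GAL Fermat.Agent.GAL.E

variable {N p : ℕ}

/-- (`cls (a * b⁻¹) = 0`, `cls_eq_zero_iff`, `mem_pows`.) -/
theorem exists_eq_mul_pow_of_cls_eq {a b : kum N p} (h : cls a = cls b) :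
    ∃ g : FN N, ((a : (FN N)ˣ) : FN N) = ((b : (FN N)ˣ) : FN N) * g ^ p := by
  have h0 : cls (a * b⁻¹) = 0 := by
    rw [cls_mul, cls_inv, h]
    exact add_neg_cancel (G := W N p) _
  rw [cls_eq_zero_iff, mem_pows] at h0
  obtain ⟨w, hw⟩ := h0
  refine ⟨(w : FN N), ?_⟩
  have h2 := congrArg (fun z : (FN N)ˣ => (z : FN N)) hw
  simp only [Units.val_pow_eq_pow_val, Subgroup.coe_mul, Units.val_mul, InvMemClass.coe_inv,
    Units.val_inv_eq_inv_val] at h2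
  have hb : ((b : (FN N)ˣ) : FN N) ≠ 0 := Units.ne_zero _
  rw [h2, mul_comm, inv_mul_cancel_right₀ hb]

/-- (`rho_cls`, `cls_pow`, previous lemma.) -/
theorem exists_galF_eq_of_rho_eq_nsmul {u : kum N p} {σ : GQ} {m : ℕ}
    (h : rho N p σ (cls u) = m • cls u) :
    ∃ g : FN N, galF N σ ((u : (FN N)ˣ) : FN N) = ((u : (FN N)ˣ) : FN N) ^ m * g ^ p := by
  rw [rho_cls, ← cls_pow] at h
  obtain ⟨g, hg⟩ := exists_eq_mul_pow_of_cls_eq h
  refine ⟨g, ?_⟩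
  simpa only [coe_galU, SubmonoidClass.coe_pow, Units.val_pow_eq_pow_val] using hg

/-- (`rho_cls`, `cls_pow`, `cls_mul`.) -/
theorem exists_galF_eq_of_rho_eq_add {u₀ u₁ : kum N p} {σ : GQ} {m : ℕ}
    (h : rho N p σ (cls u₁) = cls u₁ + m • cls u₀) :
    ∃ g : FN N, galF N σ ((u₁ : (FN N)ˣ) : FN N) =
      ((u₁ : (FN N)ˣ) : FN N) * ((u₀ : (FN N)ˣ) : FN N) ^ m * g ^ p := by
  rw [rho_cls, ← cls_pow, ← cls_mul] at h
  obtain ⟨g, hg⟩ := exists_eq_mul_pow_of_cls_eq h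
  refine ⟨g, ?_⟩
  simpa only [coe_galU, Subgroup.coe_mul, Units.val_mul, SubmonoidClass.coe_pow,
    Units.val_pow_eq_pow_val] using hg

/-- (`rho_cls`.) -/
theorem exists_galF_eq_of_rho_eq {u : kum N p} {σ : GQ} (h : rho N p σ (cls u) = cls u) :
    ∃ g : FN N, galF N σ ((u : (FN N)ˣ) : FN N) = ((u : (FN N)ˣ) : FN N) * g ^ p := by
  rw [rho_cls] at h
  obtain ⟨g, hg⟩ := exists_eq_mul_pow_of_cls_eq h
  exact ⟨g, hg⟩

/-- (`HeckeOp.TW_cls`, `cls_pow`.) -/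
theorem exists_T_eq_of_TW_eq_nsmul {ℓ : ℕ} [NeZero ℓ] (H : HeckeOp N ℓ) {u : kum N p} {a : ℕ}
    (h : H.TW p (cls u) = a • cls u) :
    ∃ g : FN N, H.T ((u : (FN N)ˣ) : FN N) = ((u : (FN N)ˣ) : FN N) ^ a * g ^ p := by
  rw [HeckeOp.TW_cls, ← cls_pow] at h
  obtain ⟨g, hg⟩ := exists_eq_mul_pow_of_cls_eq h
  refine ⟨g, ?_⟩
  simpa only [HeckeOp.coe_TU, SubmonoidClass.coe_pow, Units.val_pow_eq_pow_val] using hg

end Fermat.Agent.S44.X.Cover

end
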