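/-
S44, block X, sub-block COVER / SETUP (owner helper93).  Deep representatives of the class `[u₀]`
(an eigenvector of an inertia element with eigenvalue `≠ 1`, killed by the two norms).
-/
import Fermat.Agent.S44.X.NP.Kinf
import Fermat.Agent.S44.X.Cover.Setup.Cls
import Fermat.Agent.S33.New.Deep
import Fermat.Agent.C1.LevelChange

set_option autoImplicit false

noncomputable section

namespace Fermat.Agent.S44.X.Cover

open ModularCurve AlgebraicCurve Fermat.Agent.S24 Fermat.Agent.S24.B Fermat.Agent.GAL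
  Fermat.Agent.GAL.E Fermat.Agent.C1 Fermat.Agent.S33.New

variable {M p : ℕ} [NeZero M] [NeZero p] {A : ValuationSubring Kbar}

/-- deep representatives at the level `M p`. -/
theorem exists_deep_base (D : ALData M p) (hp : p.Prime) (hA : A.LiesOverPrime p)
    (u : kum (M * p) p) (s : GQ) (hs : s ∈ A.inertiaSubgroupIn ℚ) (a : ℕ)
    (ha : ¬ a ≡ 1 [MOD p]) (hg : rho (M * p) p s (cls u) = a • cls u)
    (hn₁ : ∃ v : FN M, D.nm ((u : (FN (M * p))ˣ) : FN (M * p)) = v ^ p)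
    (hn₂ : ∃ v : FN M, D.nm (D.w ((u : (FN (M * p))ˣ) : FN (M * p))) = v ^ p)
    (δ : Kbar) (hδ : δ ≠ 0) :
    ∃ t : FN (M * p), t ≠ 0 ∧
      CongD A δ ((((u : (FN (M * p))ˣ) : FN (M * p)) * t ^ p : FN (M * p)) : LaurentSeries Kbar) ∧
      CongD A δ ((D.w (((u : (FN (M * p))ˣ) : FN (M * p)) * t ^ p) : FN (M * p)) :
        LaurentSeries Kbar) := by
  have k0 : IsKinf A (cls u) := NP.isKinf_of_eigen hp hA s hs a ha _ hg
  have k0' : IsKinf A (D.wW p (cls u)) :=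
    NP.isKinf_of_eigen hp hA s hs a ha _ (by rw [← D.wW_rho _ hp, hg, map_nsmul])
  obtain ⟨u', hcls, c1, c2⟩ := isTor_of_isKinf D hp hA k0 k0'
  obtain ⟨g, hg'⟩ := exists_eq_mul_pow_of_cls_eq hcls
  obtain ⟨v₁, hv₁⟩ := hn₁
  obtain ⟨v₂, hv₂⟩ := hn₂
  have hu'0 : ((u' : (FN (M * p))ˣ) : FN (M * p)) ≠ 0 := Units.ne_zero _
  have hg0 : g ≠ 0 := by
    rintro rfl
    rw [zero_pow hp.ne_zero, mul_zero] at hg'
    exact hu'0 hg'
  obtain ⟨t, ht0, d1, d2⟩ := exists_deep D hp hA _ c1 c2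
    ⟨v₁ * D.nm g, by rw [hg', map_mul, map_pow, hv₁, mul_pow]⟩
    ⟨v₂ * D.nm (D.w g), by rw [hg', map_mul, map_pow, map_mul, map_pow, hv₂, mul_pow]⟩ δ hδ
  refine ⟨g * t, mul_ne_zero hg0 ht0, ?_, ?_⟩
  · rw [hg'] at d1
    rwa [mul_pow, ← mul_assoc]
  · rw [hg'] at d2
    rwa [mul_pow, ← mul_assoc]

variable {M' : ℕ} [NeZero M']

/-- transfer of a deep representative to a higher level, with a change of the constant. -/
theorem exists_deep_level (hp : p.Prime) (h : M ∣ M') (h' : M * p ∣ M' * p) (D : ALData M p)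
    (D' : ALData M' p) (u : FN (M * p)) (c : Kbar) (hc : c ≠ 0) (δ : Kbar)
    (H : ∃ t : FN (M * p), t ≠ 0 ∧ CongD A δ ((u * t ^ p : FN (M * p)) : LaurentSeries Kbar) ∧
      CongD A δ ((D.w (u * t ^ p) : FN (M * p)) : LaurentSeries Kbar)) :
    ∃ t : FN (M' * p), t ≠ 0 ∧
      CongD A δ ((algebraMap Kbar (FN (M' * p)) c * levelIncl h' u * t ^ p : FN (M' * p)) :
        LaurentSeries Kbar) ∧
      CongD A δ ((D'.w (algebraMap Kbar (FN (M' * p)) c * levelIncl h' u * t ^ p) : FN (M' * p)) :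
        LaurentSeries Kbar) := by
  obtain ⟨t, ht0, d1, d2⟩ := H
  obtain ⟨b, hb⟩ := IsAlgClosed.exists_pow_nat_eq c hp.pos
  have hb0 : b ≠ 0 := by
    rintro rfl
    rw [zero_pow hp.ne_zero] at hb
    exact hc hb.symm
  have hbF : algebraMap Kbar (FN (M' * p)) b ≠ 0 := (map_ne_zero _).2 hb0
  have ht' : levelIncl h' t ≠ 0 := (map_ne_zero _).2 ht0
  have key : algebraMap Kbar (FN (M' * p)) c * levelIncl h' u *
      (levelIncl h' t / algebraMap Kbar (FN (M' * p)) b) ^ p = levelIncl h' (u * t ^ p) := by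
    rw [← hb, map_pow, div_pow, map_mul, map_pow]
    field_simp
  refine ⟨levelIncl h' t / algebraMap Kbar (FN (M' * p)) b, div_ne_zero ht' hbF, ?_, ?_⟩
  · rw [key, coe_levelIncl]
    exact d1
  · rw [key, ← LevelChange.levelIncl_w hp h h' D.w D.w_al D.w_be D'.w D'.w_al D'.w_be,
      coe_levelIncl]
    exact d2

end Fermat.Agent.S44.X.Cover

end
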