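/-
S44, block X, sub-block COVER / SETUP (owner helper93).  Change of level `N ∣ N'` along
`GAL.levelIncl` (the identity on `q`-expansions): Kummer elements, Hecke operators, reductions,
`p`-th powers.
-/
import Fermat.Agent.S44.Defs
import Fermat.Agent.C1.LevelChange
import Fermat.Agent.GAL.E.HeckeBasic

set_option autoImplicit false

noncomputable section

namespace Fermat.Agent.S44.X.Cover

open ModularCurve AlgebraicCurve Fermat.Agent.S24 Fermat.Agent.S24.B Fermat.Agent.GAL
  Fermat.Agent.GAL.E Fermat.Agent.C1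

variable {N N' : ℕ} [NeZero N] [NeZero N']

theorem isKum_levelIncl (h : N ∣ N') {n : ℕ} {u : FN N} (hu : IsKum N n u) :
    IsKum N' n (levelIncl h u) :=
  isKum_map _ (LevelChange.isIntegral_levelIncl h) hu

/-- The Hecke operators of the two levels agree (both are pinned down by `qExpand_T`;
`qExpand_injective'`, `coe_levelIncl`). -/
theorem heckeT_levelIncl (h : N ∣ N') {ℓ : ℕ} [NeZero ℓ] (H : HeckeOp N ℓ) (H' : HeckeOp N' ℓ)
    (u : FN N) : H'.T (levelIncl h u) = levelIncl h (H.T u) := by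
  refine Subtype.ext (qExpand_injective' ℓ ?_)
  rw [H'.qExpand_T, coe_levelIncl, coe_levelIncl, H.qExpand_T]

/-- (unfold `IsRed`; the same `c, x, y`; `FN_le h`, `levelIncl_mk`, `AlgHom.commutes`). -/
theorem isRed_levelIncl (h : N ∣ N') {A : ValuationSubring Qb} {u : FN N}
    {ubar : LaurentSeries (kA A)} (hu : IsRed A u ubar) : IsRed A (levelIncl h u) ubar := by
  obtain ⟨c, x, y, hx, hy, hc, hrx, hry, rfl, hbar⟩ := hu
  refine ⟨c, x, y, FN_le h hx, FN_le h hy, hc, hrx, hry, ?_, hbar⟩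
  rw [map_mul, map_div₀, AlgHom.commutes, levelIncl_mk _ _ hx, levelIncl_mk _ _ hy]

/-- every constant is a `p`-th power -/
theorem exists_const_root (c : Kbar) {p : ℕ} (hp : 0 < p) : ∃ b : Kbar, b ^ p = c :=
  IsAlgClosed.exists_pow_nat_eq c hp

/-- If the index `e = ψ(N') / ψ(N)` is prime to `p`, a Kummer unit of level `N` with nonzero class
does not become a constant times a `p`-th power at level `N'`.
(`c = b ^ p`; `LevelChange.descend` with `d = 1`, `a = u`, `b = 1`, `v = g / b` gives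
`u ^ e = v' ^ p`, so `e • cls u = 0`; `p • cls u = 0` (`nsmul_W`); Bezout.) -/
theorem not_pow_levelIncl (h : N ∣ N') {e p : ℕ} (hp : p.Prime)
    (he : dedekindPsi N' = dedekindPsi N * e) (hep : e.Coprime p) (u : kum N p)
    (hu : cls u ≠ 0) (c : Kbar) (hc : c ≠ 0) :
    ¬ ∃ g : FN N', algebraMap Kbar (FN N') c * levelIncl h ((u : (FN N)ˣ) : FN N) = g ^ p := by
  rintro ⟨g, hg⟩
  apply hu
  obtain ⟨b, hb⟩ := exists_const_root c hp.pos
  have hb0 : algebraMap Kbar (FN N') b ≠ 0 := by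
    rw [map_ne_zero]
    rintro rfl
    rw [zero_pow hp.ne_zero] at hb
    exact hc hb.symm
  have hv : (levelIncl h ((u : (FN N)ˣ) : FN N)) ^ 1 =
      (levelIncl h (1 : FN N)) ^ 1 * (g / algebraMap Kbar (FN N') b) ^ p := by
    rw [pow_one, pow_one, map_one, one_mul, div_pow, ← hg, ← hb, map_pow,
      mul_div_cancel_left₀ _ (pow_ne_zero p hb0)]
  obtain ⟨v', hv'⟩ := LevelChange.descend h he hv
  rw [one_mul, one_pow, one_mul] at hv'
  have h1 : e • cls u = 0 := by
    rw [← cls_pow, cls_eq_zero_iff]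
    refine mem_pows_of_eq_pow (w := v') ?_
    rw [← hv']
    simp
  have h2 : p • cls u = 0 := nsmul_W _
  have h3 : addOrderOf (cls u) ∣ Nat.gcd e p :=
    Nat.dvd_gcd (addOrderOf_dvd_of_nsmul_eq_zero h1) (addOrderOf_dvd_of_nsmul_eq_zero h2)
  rw [hep.gcd_eq_one, Nat.dvd_one] at h3
  exact AddMonoid.addOrderOf_eq_one_iff.1 h3

/-- `ψ(4 N) / ψ(N) ∈ {4, 6}`.  (`S20.Combinatorics.dedekindPsi_mul_of_dvd`,
`dedekindPsi_mul_of_not_dvd` twice with the prime `2`; `M' * 4 * p = 2 * (2 * (M' * p))`.) -/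
theorem exists_psi_index (M' p : ℕ) [NeZero M'] (hp : p.Prime) (hp5 : 5 ≤ p) :
    ∃ e : ℕ, dedekindPsi (M' * 4 * p) = dedekindPsi (M' * p) * e ∧ e.Coprime p := by
  have hn : M' * p ≠ 0 := Nat.mul_ne_zero (NeZero.ne M') hp.ne_zero
  have e1 : M' * 4 * p = 2 * (2 * (M' * p)) := by ring
  have h1 : dedekindPsi (2 * (2 * (M' * p))) = 2 * dedekindPsi (2 * (M' * p)) :=
    S20.Combinatorics.dedekindPsi_mul_of_dvd (Nat.mul_ne_zero two_ne_zero hn) Nat.prime_two
      (Nat.dvd_mul_right 2 _)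
  by_cases h2 : 2 ∣ M' * p
  · refine ⟨4, ?_, ?_⟩
    · rw [e1, h1, S20.Combinatorics.dedekindPsi_mul_of_dvd hn Nat.prime_two h2]
      ring
    · refine ((Nat.Prime.coprime_iff_not_dvd hp).2 fun h => ?_).symm
      have := Nat.le_of_dvd (by norm_num) h
      omega
  · refine ⟨6, ?_, ?_⟩
    · rw [e1, h1, S20.Combinatorics.dedekindPsi_mul_of_not_dvd hn Nat.prime_two h2]
      ring
    · refine ((Nat.Prime.coprime_iff_not_dvd hp).2 fun h => ?_).symm
      have h6 := Nat.le_of_dvd (by norm_num) h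
      interval_cases p
      · omega
      · exact absurd hp (by decide)

end Fermat.Agent.S44.X.Cover

end
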