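/-
S44, block X, sub-block COVER / SETUP (owner helper93).  The normalised `p`-th root of a Kummer
element in `ℚ̄((q))`.
-/
import Fermat.Agent.GAL.E.Defs
import Fermat.Agent.KLB.Mod.Series

set_option autoImplicit false

noncomputable section

namespace Fermat.Agent.S44.X.Cover

open ModularCurve AlgebraicCurve Fermat.Agent.S24 Fermat.Agent.GAL Fermat.Agent.GAL.E

private theorem Root_order_Jser_one : (Jser 1).order = -1 := by
  have hco : ∀ k : ℤ, (Jser 1).coeff k = algebraMap ℚ Kbar (jq.coeff k) := by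
    intro k
    rw [Jser, coeffEmb_coeff, qExpand_one_apply]
  have hc' : (Jser 1).coeff (-1 : ℤ) ≠ 0 := by
    rw [hco, coeff_jq_neg_one, map_one]
    exact one_ne_zero
  have hne : Jser 1 ≠ 0 := HahnSeries.ne_zero_of_coeff_ne_zero hc'
  refine le_antisymm (HahnSeries.order_le_of_coeff_ne_zero hc') ?_
  by_contra hlt
  rw [not_le] at hlt
  refine hne (HahnSeries.coeff_order_eq_zero.mp ?_)
  rw [hco, coeff_jq_of_lt hlt, map_zero]

private theorem Root_leadingCoeff_pow (r : LaurentSeries Kbar) (n : ℕ) :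
    (r ^ n).leadingCoeff = r.leadingCoeff ^ n := by
  induction n with
  | zero => simp
  | succ n ih => rw [pow_succ, HahnSeries.leadingCoeff_mul, ih, pow_succ]

/-- The `q`-adic order of a Kummer element is divisible by `n`.
(`KLB.Mod.exists_place_ord_eq_order (modularFunctionFieldBar N)` with `f = jF N`, whose expansion
`Jser 1` has order `-1`; then `hu v`.) -/
theorem dvd_order_of_isKum {N n : ℕ} {u : FN N} (hu : IsKum N n u) (h0 : u ≠ 0) :
    (n : ℤ) ∣ (u : LaurentSeries Kbar).order := by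
  have hj : ((jF N : FN N) : LaurentSeries Kbar).order = -1 := Root_order_Jser_one
  obtain ⟨v, hv⟩ := KLB.Mod.exists_place_ord_eq_order (modularFunctionFieldBar N)
    ⟨jF N, Or.inr hj⟩
  rw [← hv u h0]
  exact hu v

/-- After division by the leading coefficient, a Kummer element has a `p`-th root with leading
coefficient one in `ℚ̄((q))`.
(`c = (leadingCoeff u)⁻¹`; `KLB.Mod.exists_pow_eq_laurent'` with the constant `1`; the root `r`
satisfies `(leadingCoeff r) ^ p = 1` (`HahnSeries.leadingCoeff_pow` or `leadingCoeff_mul`), divide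
`r` by its leading coefficient.) -/
theorem exists_normalised_root {N p : ℕ} (hp : 0 < p) {u : FN N} (hu : IsKum N p u) (h0 : u ≠ 0) :
    ∃ (c : Kbar) (W : LaurentSeries Kbar), c ≠ 0 ∧
      W ^ p = ((algebraMap Kbar (FN N) c * u : FN N) : LaurentSeries Kbar) ∧ W.leadingCoeff = 1 := by
  set s : LaurentSeries Kbar := (u : LaurentSeries Kbar) with hs
  have hs0 : s ≠ 0 := fun h => h0 (Subtype.ext h)
  have ha : s.leadingCoeff ≠ 0 := HahnSeries.leadingCoeff_ne_zero.2 hs0
  have hc0 : (s.leadingCoeff)⁻¹ ≠ 0 := inv_ne_zero ha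
  have hcoe : ((algebraMap Kbar (FN N) (s.leadingCoeff)⁻¹ * u : FN N) : LaurentSeries Kbar) =
      HahnSeries.C (s.leadingCoeff)⁻¹ * s := by
    have h1 : ((algebraMap Kbar (FN N) (s.leadingCoeff)⁻¹ : FN N) : LaurentSeries Kbar) =
        algebraMap Kbar (LaurentSeries Kbar) (s.leadingCoeff)⁻¹ := rfl
    rw [IntermediateField.coe_mul, h1, algebraMap_laurentSeries_eq_single]
    rfl
  have hC0 : (HahnSeries.C (s.leadingCoeff)⁻¹ : LaurentSeries Kbar) ≠ 0 := HahnSeries.C_ne_zero hc0
  have hlead : (HahnSeries.C (s.leadingCoeff)⁻¹ * s).leadingCoeff = 1 := by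
    rw [HahnSeries.leadingCoeff_mul, HahnSeries.C_apply, HahnSeries.leadingCoeff_of_single,
      inv_mul_cancel₀ ha]
  have hord : (p : ℤ) ∣ (HahnSeries.C (s.leadingCoeff)⁻¹ * s).order := by
    rw [HahnSeries.order_mul hC0 hs0, HahnSeries.order_C, zero_add]
    exact dvd_order_of_isKum hu h0
  obtain ⟨r, hr⟩ := KLB.Mod.exists_pow_eq_laurent' p hp _ (mul_ne_zero hC0 hs0) hord 1
    (by rw [one_pow, hlead])
  have hrl : r.leadingCoeff ^ p = 1 := by
    rw [← Root_leadingCoeff_pow, hr, hlead]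
  have hrl0 : r.leadingCoeff ≠ 0 := by
    intro h
    rw [h, zero_pow hp.ne'] at hrl
    exact zero_ne_one hrl
  refine ⟨(s.leadingCoeff)⁻¹, HahnSeries.C (r.leadingCoeff)⁻¹ * r, hc0, ?_, ?_⟩
  · rw [hcoe, mul_pow, hr, ← map_pow, inv_pow, hrl, inv_one, map_one, one_mul]
  · rw [HahnSeries.leadingCoeff_mul, HahnSeries.C_apply, HahnSeries.leadingCoeff_of_single,
      inv_mul_cancel₀ hrl0]

end Fermat.Agent.S44.X.Cover

end
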