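/-
S44, block X, sub-block COVER / SETUP (owner helper93).  From a `NewPair` at level `M' p` to the data
of the cover trick at the level `L = M' * 4 * p`:

* `U`  = the pull-back of `u₀`, normalised (leading coefficient one), `W` its normalised `p`-th root;
* `U₁` = the pull-back of `u₁`.
-/
import Fermat.Agent.S44.X.Cover.Defs
import Fermat.Agent.S44.X.Cover.Setup.Level
import Fermat.Agent.S44.X.Cover.Setup.Root
import Fermat.Agent.S44.X.Cover.Setup.Deep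
import Fermat.Agent.S44.X.NP.Norm
import Fermat.Agent.S33.InertiaCyclo
import Fermat.Agent.GAL.E.Exists

set_option autoImplicit false

noncomputable section

namespace Fermat.Agent.S44.X.Cover

open ModularCurve AlgebraicCurve Fermat.Agent.S24 Fermat.Agent.S24.B Fermat.Agent.GAL
  Fermat.Agent.GAL.E Fermat.Agent.C1 Fermat.Agent.S33.New

theorem dvd_lv (M' p : ℕ) : M' * p ∣ M' * 4 * p := ⟨4, by ring⟩

/-- **The output of SETUP.** -/
structure Setup (P : FreyPackage) (M' : ℕ) [NeZero M'] (A : ValuationSubring Qb)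
    (Wc : WeierstrassCurve ℤ) (u₀ u₁ : E.kum (M' * P.p) P.p) (D : ALData (M' * 4) P.p)
    (U U₁ : FN (M' * 4 * P.p)) (W : LaurentSeries Kbar) : Prop where
  root : RootData (Iner A) P.p (M' * 4 * P.p) U W
  U_eq : ∃ c : Kbar, c ≠ 0 ∧
    U = algebraMap Kbar (FN (M' * 4 * P.p)) c * levelIncl (dvd_lv M' P.p) (fn u₀)
  U₁_eq : U₁ = levelIncl (dvd_lv M' P.p) (fn u₁)
  ne₁ : U₁ ≠ 0
  kum₁ : IsKum (M' * 4 * P.p) P.p U₁
  gal₁ : ∀ τ ∈ Iner A, ∃ (m : ℕ) (h : FN (M' * 4 * P.p)),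
    galF (M' * 4 * P.p) τ U₁ = U₁ * U ^ m * h ^ P.p
  stab : ∀ τ ∈ stabU A u₀ u₁, ∃ g : FN (M' * 4 * P.p), galF (M' * 4 * P.p) τ U₁ = U₁ * g ^ P.p
  deep : ∀ n : ℕ, ∃ t : FN (M' * 4 * P.p), t ≠ 0 ∧
    CongD A ((P.p : Kbar) ^ n) ((U * t ^ P.p : FN (M' * 4 * P.p)) : LaurentSeries Kbar) ∧
    CongD A ((P.p : Kbar) ^ n) ((D.w (U * t ^ P.p) : FN (M' * 4 * P.p)) : LaurentSeries Kbar)
  hecke : ∀ (ℓ : ℕ) [NeZero ℓ], ℓ.Prime → Wc.IsGoodPrimeFor ℓ → ¬ ℓ ∣ M' * 4 * P.p →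
    ∀ (H : HeckeOp (M' * 4 * P.p) ℓ) (a : ℕ),
      (a : ZMod P.p) = ((Wc.apOfModel ℓ : ℤ) : ZMod P.p) →
      (∃ g : FN (M' * 4 * P.p), H.T U = U ^ a * g ^ P.p) ∧
        ∃ g : FN (M' * 4 * P.p), H.T U₁ = U₁ ^ a * g ^ P.p
  red : ∀ ubar : LaurentSeries (kA A), IsRed A (fn u₁) ubar → IsRed A U₁ ubar

/-- a relation `x = y * g ^ p` survives multiplication of `x`, `y` by constants. -/
theorem exists_mul_pow_of_const {F : Type*} [Field F] [Algebra Kbar F] {p : ℕ} (hp : 0 < p)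
    (c c' : Kbar) (hc' : c' ≠ 0) (y g : F) :
    ∃ g' : F, algebraMap Kbar F c * (y * g ^ p) = algebraMap Kbar F c' * y * g' ^ p := by
  obtain ⟨b, hb⟩ := IsAlgClosed.exists_pow_nat_eq (c / c') hp
  refine ⟨algebraMap Kbar F b * g, ?_⟩
  have hc'F : algebraMap Kbar F c' ≠ 0 := (map_ne_zero _).2 hc'
  rw [mul_pow, ← map_pow, hb, map_div₀]
  field_simp

theorem exists_setup (P : FreyPackage) (M' : ℕ) [NeZero M'] (hsq : Squarefree (M' * P.p))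
    (A : ValuationSubring Qb) (hA : A.LiesOverPrime P.p) (Wc : WeierstrassCurve ℤ)
    (u₀ u₁ : E.kum (M' * P.p) P.p) (hN : NewPair P M' A Wc u₀ u₁) (D : ALData (M' * 4) P.p) :
    ∃ (U U₁ : FN (M' * 4 * P.p)) (W : LaurentSeries Kbar), Setup P M' A Wc u₀ u₁ D U U₁ W := by
  have hp : P.p.Prime := P.pp
  have hpM : ¬ P.p ∣ M' := by
    rintro ⟨c, rfl⟩
    exact Nat.squarefree_iff_prime_squarefree.mp hsq P.p P.pp ⟨c, by ring⟩
  obtain ⟨D₀⟩ := nonempty_alData M' P.p hp hpM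
  obtain ⟨s, hs, a, ha, ha1⟩ := S33.inertiaCyclo hp (by have := P.hp5; omega) A hA
  obtain ⟨e, he, hep⟩ := exists_psi_index M' P.p hp P.hp5
  have hu₀0 : fn u₀ ≠ 0 := Units.ne_zero _
  have hu₁0 : fn u₁ ≠ 0 := Units.ne_zero _
  have hι₀ : levelIncl (dvd_lv M' P.p) (fn u₀) ≠ 0 := (map_ne_zero _).2 hu₀0
  have hk₀ : IsKum (M' * 4 * P.p) P.p (levelIncl (dvd_lv M' P.p) (fn u₀)) :=
    isKum_levelIncl _ u₀.2
  obtain ⟨c, W, hc, hW, hlc⟩ := exists_normalised_root hp.pos hk₀ hι₀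
  have hcls0 : cls u₀ ≠ 0 := by
    intro h0
    have h1 := (hN.indep 1 0 (by rw [h0]; simp)).1
    exact hp.one_lt.ne' (Nat.dvd_one.mp h1)
  have g0 : rho (M' * P.p) P.p s (cls u₀) = a • cls u₀ :=
    hN.gal₀ s hs a fun ζ hζ => ha ζ (by rw [pow_one]; exact hζ)
  obtain ⟨v₀, hv₀⟩ := hN.newα₀
  obtain ⟨v₀', hv₀'⟩ := hN.newβ₀
  refine ⟨algebraMap Kbar _ c * levelIncl (dvd_lv M' P.p) (fn u₀),
    levelIncl (dvd_lv M' P.p) (fn u₁), W, ?_⟩
  refine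
    { root :=
        { pow := hW
          nrm := hlc
          kum := (isKum_algebraMap _ _ c).mul hk₀
          notpow := not_pow_levelIncl (dvd_lv M' P.p) hp he hep u₀ hcls0 c hc
          gal := ?_ }
      U_eq := ⟨c, hc, rfl⟩
      U₁_eq := rfl
      ne₁ := (map_ne_zero _).2 hu₁0
      kum₁ := isKum_levelIncl _ u₁.2
      gal₁ := ?_
      stab := ?_
      deep := ?_
      hecke := ?_
      red := fun ubar h => isRed_levelIncl _ h }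
  · intro τ hτ m hm
    obtain ⟨g, hg⟩ := exists_galF_eq_of_rho_eq_nsmul (hN.gal₀ τ hτ m hm)
    have e1 : galF (M' * 4 * P.p) τ (algebraMap Kbar _ c * levelIncl (dvd_lv M' P.p) (fn u₀)) =
        algebraMap Kbar _ (τ c) * (levelIncl (dvd_lv M' P.p) (fn u₀) ^ m *
          levelIncl (dvd_lv M' P.p) g ^ P.p) := by
      rw [map_mul, galF_algebraMap, LevelChange.galF_levelIncl, hg, map_mul, map_pow, map_pow]
    obtain ⟨g', hg'⟩ := exists_mul_pow_of_const (F := FN (M' * 4 * P.p)) hp.pos (τ c) (c ^ m)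
      (pow_ne_zero _ hc) (levelIncl (dvd_lv M' P.p) (fn u₀) ^ m) (levelIncl (dvd_lv M' P.p) g)
    exact ⟨g', by rw [e1, hg', mul_pow, map_pow]⟩
  · intro τ hτ
    obtain ⟨m, hm⟩ := hN.gal₁ τ hτ
    obtain ⟨g, hg⟩ := exists_galF_eq_of_rho_eq_add hm
    have e1 : galF (M' * 4 * P.p) τ (levelIncl (dvd_lv M' P.p) (fn u₁)) =
        levelIncl (dvd_lv M' P.p) (fn u₁) * levelIncl (dvd_lv M' P.p) (fn u₀) ^ m *
          levelIncl (dvd_lv M' P.p) g ^ P.p := by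
      rw [LevelChange.galF_levelIncl, hg, map_mul, map_mul, map_pow, map_pow]
    obtain ⟨g', hg'⟩ := exists_mul_pow_of_const (F := FN (M' * 4 * P.p)) hp.pos 1 (c ^ m)
      (pow_ne_zero _ hc) (levelIncl (dvd_lv M' P.p) (fn u₁) *
        levelIncl (dvd_lv M' P.p) (fn u₀) ^ m) (levelIncl (dvd_lv M' P.p) g)
    rw [map_one, one_mul] at hg'
    refine ⟨m, g', ?_⟩
    rw [e1, hg', mul_pow, map_pow]
    ring
  · intro τ hτ
    obtain ⟨g, hg⟩ := exists_galF_eq_of_rho_eq hτ.2.2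
    refine ⟨levelIncl (dvd_lv M' P.p) g, ?_⟩
    rw [LevelChange.galF_levelIncl, hg, map_mul, map_pow]
  · intro n
    have hδ : ((P.p : Kbar) ^ n) ≠ 0 := pow_ne_zero _ (Nat.cast_ne_zero.2 hp.ne_zero)
    exact exists_deep_level hp (Dvd.intro 4 rfl) (dvd_lv M' P.p) D₀ D (fn u₀) c hc _
      (exists_deep_base D₀ hp hA u₀ s hs a ha1 g0
        ⟨v₀, by rw [NP.nm_eq_normAlpha D₀ hp hpM]; exact hv₀⟩
        ⟨v₀', by rw [NP.nm_w_eq_normBeta D₀ hp hpM]; exact hv₀'⟩ _ hδ)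
  · intro ℓ _ hℓ hgood hℓL H b hb
    have hℓN : ¬ ℓ ∣ M' * P.p := fun h => hℓL (h.trans (dvd_lv M' P.p))
    obtain ⟨H₀⟩ := nonempty_heckeOp (M' * P.p) ℓ hℓ hℓN
    obtain ⟨h0, h1⟩ := hN.hecke ℓ hℓ hgood hℓN H₀ b hb
    obtain ⟨g₀, hg₀⟩ := exists_T_eq_of_TW_eq_nsmul H₀ h0
    obtain ⟨g₁, hg₁⟩ := exists_T_eq_of_TW_eq_nsmul H₀ h1
    constructor
    · have e1 : H.T (algebraMap Kbar _ c * levelIncl (dvd_lv M' P.p) (fn u₀)) =
          algebraMap Kbar _ (c ^ (ℓ + 1)) * (levelIncl (dvd_lv M' P.p) (fn u₀) ^ b *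
            levelIncl (dvd_lv M' P.p) g₀ ^ P.p) := by
        rw [map_mul, H.T_algebraMap, heckeT_levelIncl (dvd_lv M' P.p) H₀ H, hg₀,
          map_mul (levelIncl (dvd_lv M' P.p)), map_pow (levelIncl (dvd_lv M' P.p)),
          map_pow (levelIncl (dvd_lv M' P.p))]
      obtain ⟨g', hg'⟩ := exists_mul_pow_of_const (F := FN (M' * 4 * P.p)) hp.pos (c ^ (ℓ + 1))
        (c ^ b) (pow_ne_zero _ hc) (levelIncl (dvd_lv M' P.p) (fn u₀) ^ b)
        (levelIncl (dvd_lv M' P.p) g₀)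
      exact ⟨g', by rw [e1, hg', mul_pow, map_pow]⟩
    · refine ⟨levelIncl (dvd_lv M' P.p) g₁, ?_⟩
      rw [heckeT_levelIncl (dvd_lv M' P.p) H₀ H, hg₁, map_mul, map_pow, map_pow]

end Fermat.Agent.S44.X.Cover

end
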