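/-
S44, block X, sub-block COVER / SETUP (owner helper93).  **NodeSetup** (statement of helper132 in
`Cover/Inst.lean`) from `exists_setup`.
-/
import Fermat.Agent.S44.X.Cover.Inst
import Fermat.Agent.S44.X.Cover.Setup.Main

set_option autoImplicit false

noncomputable section

namespace Fermat.Agent.S44.X.Cover

open ModularCurve AlgebraicCurve Fermat.Agent.S24 Fermat.Agent.S24.B Fermat.Agent.GAL
  Fermat.Agent.GAL.E Fermat.Agent.C1 Fermat.Agent.S33.New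

/-- `CongD` gives `Deep` for the Gauss valuation ring. -/
theorem deep_of_congD {A : ValuationSubring Kbar} {L : ℕ} {G : ValuationSubring (FN L)}
    (hG : IsGaussFN A L G) {p : ℕ} (hp : p ≠ 0) (n : ℕ) {f : FN L}
    (h : CongD A ((p : Kbar) ^ n) (f : LaurentSeries Kbar)) : Deep G p n f := by
  obtain ⟨P, Q, hQ, e⟩ := h
  refine (hG _).2 ⟨P, Q, hQ, ?_⟩
  have hp0 : ((p : Kbar) ^ n) ≠ 0 := pow_ne_zero _ (Nat.cast_ne_zero.2 hp)
  have hC : (HahnSeries.C ((p : Kbar) ^ n) : LaurentSeries Kbar) ≠ 0 := by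
    intro h0
    exact hp0 (by simpa using h0)
  have hcoe : (((f - 1) / (p : FN L) ^ n : FN L) : LaurentSeries Kbar) =
      ((f : LaurentSeries Kbar) - 1) / HahnSeries.C ((p : Kbar) ^ n) := by
    have h1 : ((p : FN L) ^ n) = algebraMap Kbar (FN L) ((p : Kbar) ^ n) := by
      rw [map_pow, map_natCast]
    rw [h1, ← RedField.coe_algebraMap (N := L)]
    rfl
  rw [hcoe, div_mul_eq_mul_div, e, mul_div_cancel_left₀ _ hC]

/-- `Deep` for the transform of `G` by the Atkin-Lehner involution. -/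
theorem deep_wG_iff {M q : ℕ} [NeZero M] [NeZero q] (D : ALData M q)
    (G : ValuationSubring (FN (M * q))) (p n : ℕ) (f : FN (M * q)) :
    Deep (wG D G) p n f ↔ Deep G p n (D.w f) := by
  unfold Deep wG
  rw [ValuationSubring.mem_comap]
  have e : (D.w : FN (M * q) →+* FN (M * q)) ((f - 1) / (p : FN (M * q)) ^ n) =
      (D.w f - 1) / (p : FN (M * q)) ^ n := by
    show D.w ((f - 1) / (p : FN (M * q)) ^ n) = _
    rw [map_div₀, map_sub, map_one, map_pow, map_natCast]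
  rw [e]

theorem nodeSetup : NodeSetup := by
  intro P M' _ hsq A hA W₀ u₀ u₁ hN D G hG
  obtain ⟨U, U₁, W, S⟩ := exists_setup P M' hsq A hA W₀ u₀ u₁ hN D
  have hp : P.p.Prime := P.pp
  refine ⟨U, U₁, W, S.root, S.ne₁, S.kum₁, S.gal₁, S.stab, S.red, ?_, ?_⟩
  · intro n
    obtain ⟨t, ht, d1, d2⟩ := S.deep n
    exact ⟨t, ht, deep_of_congD hG hp.ne_zero n d1,
      (deep_wG_iff D G _ _ _).2 (deep_of_congD hG hp.ne_zero n d2)⟩
  · obtain ⟨ℓ, hℓ, hℓ2, hgood, hℓN, hne⟩ := hN.nonEis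
    have : NeZero ℓ := ⟨hℓ.ne_zero⟩
    have hℓL : ¬ ℓ ∣ M' * 4 * P.p := by
      intro h
      have h1 : ℓ ∣ (M' * P.p) * 2 ^ 2 := by
        have e : M' * 4 * P.p = (M' * P.p) * 2 ^ 2 := by ring
        rwa [e] at h
      rcases (Nat.Prime.dvd_mul hℓ).1 h1 with h2 | h2
      · exact hℓN h2
      · exact hℓ2 ((Nat.prime_dvd_prime_iff_eq hℓ Nat.prime_two).1 (hℓ.dvd_of_dvd_pow h2))
    obtain ⟨H⟩ := nonempty_heckeOp (M' * 4 * P.p) ℓ hℓ hℓL
    have : NeZero P.p := ⟨hp.ne_zero⟩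
    obtain ⟨a, ha⟩ := ZMod.natCast_zmod_surjective (((W₀.apOfModel ℓ : ℤ) : ZMod P.p))
    obtain ⟨⟨g, hg⟩, -⟩ := S.hecke ℓ hℓ hgood hℓL H a ha
    exact ⟨ℓ, inferInstance, H, a, g, hℓ, hℓ2, hℓL, hg, by rw [ha]; exact hne⟩

end Fermat.Agent.S44.X.Cover

end
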